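/-
Team KUMMER, block KLA (Kummer's lemma, design A: logarithmic derivative), owner: helper70.
Shared definitions between the generic argument (KLA/DLog.lean) and the certificates
(KLA/Cert*.lean).
-/
import Mathlib

set_option autoImplicit false

namespace Fermat.Agent.Kummer.KLA

open Polynomial

/-- The polynomial `P_i(X)` with `P_0 = 1 + X` (the image of `ζ` under `ζ ↦ 1 + X`) and
`P_i = ∑_{k ≤ i} (1 + X)^k` for `i ≥ 1` (the image of the cyclotomic unit
`1 + ζ + ⋯ + ζ^i`). -/
noncomputable def kPolyN (i : ℕ) : ℕ[X] :=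
  if i = 0 then 1 + X else ∑ k ∈ Finset.range (i + 1), (1 + X) ^ k

/-- Certificate for Kummer's lemma at the prime `p` (design A).  With `h = (p - 1) / 2`:
polynomials `N_i` with `N_i * P_i = P_i' * ∏_j P_j` (so `N_i = P_i' * ∏_{j ≠ i} P_j`) such that
the coefficient vectors of the `N_i` in degrees `< p - 2` are linearly independent modulo `p`. -/
def KLACert (p : ℕ) : Prop :=
  ∃ N : Fin ((p - 1) / 2) → ℕ[X],
    (∀ i, N i * kPolyN i = derivative (kPolyN i) * ∏ j : Fin ((p - 1) / 2), kPolyN j) ∧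
    ∀ c : Fin ((p - 1) / 2) → ZMod p,
      (∀ d < p - 2, ∑ i, c i * (((N i).coeff d : ℕ) : ZMod p) = 0) → c = 0

end Fermat.Agent.Kummer.KLA
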