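/-
Team KUMMER, block KLA (Kummer's lemma, design A), certificates. Owner of this file: helper3.

A tiny verified list calculator for polynomials over `ℕ`, and the generic reduction of the
certificate `KLACert p` to a kernel-decidable check on lists of natural numbers.
-/
import Mathlib
import Fermat.Agent.Kummer.KLA.Defs

set_option autoImplicit false

namespace Fermat.Agent.Kummer.KLA.ListPoly

open Polynomial

/-- The polynomial with the given list of coefficients (constant term first). -/
noncomputable def lp : List ℕ → ℕ[X]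
  | [] => 0
  | a :: l => C a + X * lp l

@[simp] lemma lp_nil : lp [] = 0 := rfl

@[simp] lemma lp_cons (a : ℕ) (l : List ℕ) : lp (a :: l) = C a + X * lp l := rfl

lemma coeff_lp (l : List ℕ) (d : ℕ) : (lp l).coeff d = l.getD d 0 := by
  induction l generalizing d with
  | nil => simp
  | cons a l ih =>
    cases d with
    | zero => simp
    | succ d => simp [ih]

/-- Addition of coefficient lists. -/
def ladd : List ℕ → List ℕ → List ℕ
  | [], m => m
  | a :: l, [] => a :: l
  | a :: l, b :: m => (a + b) :: ladd l m

lemma lp_ladd (l m : List ℕ) : lp (ladd l m) = lp l + lp m := by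
  induction l generalizing m with
  | nil => simp [ladd]
  | cons a l ih =>
    cases m with
    | nil => simp [ladd]
    | cons b m =>
      simp only [ladd, lp_cons, ih, map_add]
      ring

/-- Scalar multiplication of a coefficient list. -/
def lsmul (a : ℕ) : List ℕ → List ℕ
  | [] => []
  | b :: m => (a * b) :: lsmul a m

lemma lp_lsmul (a : ℕ) (l : List ℕ) : lp (lsmul a l) = C a * lp l := by
  induction l with
  | nil => simp [lsmul]
  | cons b l ih =>
    simp only [lsmul, lp_cons, ih, map_mul]
    ring

/-- Multiplication of coefficient lists. -/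
def lmul : List ℕ → List ℕ → List ℕ
  | [], _ => []
  | a :: l, m => ladd (lsmul a m) (0 :: lmul l m)

lemma lp_lmul (l m : List ℕ) : lp (lmul l m) = lp l * lp m := by
  induction l with
  | nil => simp [lmul]
  | cons a l ih =>
    simp only [lmul, lp_ladd, lp_lsmul, lp_cons, ih, map_zero, zero_add]
    ring

/-- Derivative of a coefficient list. -/
def lder : List ℕ → List ℕ
  | [] => []
  | _ :: l => ladd l (0 :: lder l)

lemma lp_lder (l : List ℕ) : lp (lder l) = derivative (lp l) := by
  induction l with
  | nil => simp [lder]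
  | cons a l ih =>
    simp only [lder, lp_ladd, lp_cons, ih, map_zero, zero_add, derivative_add, derivative_C,
      derivative_mul, derivative_X, one_mul]

/-- Powers of a coefficient list. -/
def lpow (l : List ℕ) : ℕ → List ℕ
  | 0 => [1]
  | k + 1 => lmul l (lpow l k)

lemma lp_lpow (l : List ℕ) (k : ℕ) : lp (lpow l k) = lp l ^ k := by
  induction k with
  | zero => simp [lpow]
  | succ k ih => simp only [lpow, lp_lmul, ih, pow_succ']

/-- Geometric sums `∑ k < n, l ^ k` of a coefficient list. -/
def lgeom (l : List ℕ) : ℕ → List ℕ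
  | 0 => []
  | n + 1 => ladd (lgeom l n) (lpow l n)

lemma lp_lgeom (l : List ℕ) (n : ℕ) : lp (lgeom l n) = ∑ k ∈ Finset.range n, lp l ^ k := by
  induction n with
  | zero => simp [lgeom]
  | succ n ih => simp only [lgeom, lp_ladd, lp_lpow, ih, Finset.sum_range_succ]

/-- Coefficient list of `kPolyN i`. -/
def kList (i : ℕ) : List ℕ := if i = 0 then [1, 1] else lgeom [1, 1] (i + 1)

lemma lp_one_one : lp [1, 1] = 1 + X := by simp

lemma kPolyN_eq (i : ℕ) : kPolyN i = lp (kList i) := by
  unfold kPolyN kList
  split_ifs with h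
  · exact lp_one_one.symm
  · rw [lp_lgeom, lp_one_one]

/-- Product of a list of coefficient lists. -/
def lprod : List (List ℕ) → List ℕ
  | [] => [1]
  | l :: ls => lmul l (lprod ls)

lemma lp_lprod (ls : List (List ℕ)) : lp (lprod ls) = (ls.map lp).prod := by
  induction ls with
  | nil => simp [lprod]
  | cons l ls ih => simp only [lprod, lp_lmul, ih, List.map_cons, List.prod_cons]

/-- Coefficient list of `N_i = P_i' * ∏_{j < h, j ≠ i} P_j`. -/
def NL (h i : ℕ) : List ℕ :=
  lmul (lder (kList i)) (lprod ((List.range h).map fun j => if j = i then [1] else kList j))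

lemma lp_NL (h i : ℕ) :
    lp (NL h i) = derivative (kPolyN i) *
      ∏ j ∈ Finset.range h, (if j = i then 1 else kPolyN j) := by
  unfold NL
  rw [lp_lmul, lp_lder, ← kPolyN_eq, lp_lprod, List.map_map,
    ← List.prod_toFinset _ (List.nodup_range), List.toFinset_range]
  congr 1
  refine Finset.prod_congr rfl fun j _ => ?_
  simp only [Function.comp_apply]
  split_ifs
  · simp
  · exact (kPolyN_eq j).symm

lemma lp_NL_mul (h : ℕ) (i : Fin h) :
    lp (NL h i) * kPolyN i = derivative (kPolyN i) * ∏ j : Fin h, kPolyN j := by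
  rw [lp_NL, mul_assoc]
  congr 1
  rw [Fin.prod_univ_eq_prod_range (fun j => kPolyN j) h,
    ← Finset.mul_prod_erase (Finset.range h) _ (Finset.mem_range.mpr i.2),
    ← Finset.mul_prod_erase (Finset.range h) kPolyN (Finset.mem_range.mpr i.2)]
  rw [if_pos rfl, one_mul, mul_comm]
  congr 1
  refine Finset.prod_congr rfl fun j hj => ?_
  rw [if_neg (Finset.ne_of_mem_erase hj)]

/-- The kernel-decidable check: `Y` is a left inverse modulo `p` of the matrix of the
coefficients (in degrees `< p - 2`) of the `N_i`. -/
def check (p : ℕ) (Y : List (List ℕ)) : Bool :=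
  (List.range ((p - 1) / 2)).all fun k =>
    (List.range ((p - 1) / 2)).all fun i =>
      decide ((((List.range (p - 2)).map fun d =>
        (Y.getD k []).getD d 0 * (NL ((p - 1) / 2) i).getD d 0).sum) % p =
          if i = k then 1 else 0)

theorem klaCert_of_check (p : ℕ) (Y : List (List ℕ)) (hY : check p Y = true) : KLACert p := by
  refine ⟨fun i => lp (NL ((p - 1) / 2) i), fun i => lp_NL_mul _ i, ?_⟩
  intro c hc
  simp only [coeff_lp] at hc
  have key : ∀ k i : Fin ((p - 1) / 2),
      ((∑ d ∈ Finset.range (p - 2),
        (Y.getD k []).getD d 0 * (NL ((p - 1) / 2) i).getD d 0 : ℕ) : ZMod p) =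
        if i = k then 1 else 0 := by
    intro k i
    unfold check at hY
    rw [List.all_eq_true] at hY
    have h1 := hY k (List.mem_range.mpr k.2)
    rw [List.all_eq_true] at h1
    have h2 := of_decide_eq_true (h1 i (List.mem_range.mpr i.2))
    rw [← List.sum_toFinset _ (List.nodup_range), List.toFinset_range] at h2
    rw [← ZMod.natCast_mod, h2]
    by_cases hik : i = k
    · have : (i : ℕ) = k := by rw [hik]
      simp [hik]
    · have : (i : ℕ) ≠ k := fun h => hik (Fin.ext h)
      simp [hik, this]
  funext k
  have h3 : c k = ∑ i, c i * (if i = k then 1 else 0) := by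
    simp
  rw [h3]
  simp_rw [← key k]
  push_cast
  simp_rw [Finset.mul_sum]
  rw [Finset.sum_comm]
  apply Finset.sum_eq_zero
  intro d hd
  have h4 := hc d (Finset.mem_range.mp hd)
  have h5 : ∀ i : Fin ((p - 1) / 2),
      c i * (((Y.getD k []).getD d 0 : ℕ) * ((NL ((p - 1) / 2) i).getD d 0 : ℕ) : ZMod p) =
        ((Y.getD k []).getD d 0 : ZMod p) * (c i * ((NL ((p - 1) / 2) i).getD d 0 : ℕ)) := by
    intro i; ring
  simp_rw [h5]
  rw [← Finset.mul_sum, h4, mul_zero]

end Fermat.Agent.Kummer.KLA.ListPoly
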