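/-
Team KUMMER, block KLA (Kummer's lemma, design A). Owner of this file: helper3.
Certificate `KLACert 11`: the list `Y` is a left inverse modulo 11 of the coefficient matrix of
the polynomials `N_i = P_i' * ∏_(j ≠ i) P_j`; the check is evaluated by the kernel.
-/
import Mathlib
import Fermat.Agent.Kummer.KLA.Defs
import Fermat.Agent.Kummer.KLA.ListPoly

set_option autoImplicit false

namespace Fermat.Agent.Kummer.KLA

theorem klaCert_11 : KLACert 11 :=
  ListPoly.klaCert_of_check 11
    [[0, 5, 0, 10, 0, 6, 0, 2, 0], [8, 3, 0, 9, 0, 0, 0, 10, 0], [1, 10, 0, 5, 0, 2, 0, 6, 0], [7, 8, 0, 3, 0, 10, 0, 7, 0], [0, 5, 0, 10, 0, 5, 0, 2, 0]]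
    (by decide +kernel)

end Fermat.Agent.Kummer.KLA
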