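/-
Team KUMMER, block KLA (Kummer's lemma, design A), owner: helper70.
The truncated polynomial ring `F_p[X]/(X^(p-1))` and its derivation `X d/dX`.
-/
import Mathlib

set_option autoImplicit false

namespace Fermat.Agent.Kummer.KLA

open Polynomial

noncomputable section

/-- The truncated polynomial ring `F_p[X]/(X^(p-1))`. -/
abbrev TruncRing (p : ℕ) : Type := (ZMod p)[X] ⧸ Ideal.span {(X : (ZMod p)[X]) ^ (p - 1)}

/-- The class of a polynomial in the truncated polynomial ring. -/
abbrev tmk (p : ℕ) : (ZMod p)[X] →+* TruncRing p :=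
  Ideal.Quotient.mk (Ideal.span {(X : (ZMod p)[X]) ^ (p - 1)})

theorem tmk_surjective (p : ℕ) : Function.Surjective (tmk p) := Ideal.Quotient.mk_surjective

theorem tmk_eq_zero_iff (p : ℕ) (f : (ZMod p)[X]) : tmk p f = 0 ↔ X ^ (p - 1) ∣ f := by
  rw [Ideal.Quotient.eq_zero_iff_mem, Ideal.mem_span_singleton]

/-- The derivation `X d/dX` on the truncated polynomial ring. -/
def truncD (p : ℕ) (a : TruncRing p) : TruncRing p :=
  tmk p (X * derivative (Function.surjInv (tmk_surjective p) a))

theorem truncD_tmk (p : ℕ) [Fact p.Prime] (f : (ZMod p)[X]) :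
    truncD p (tmk p f) = tmk p (X * derivative f) := by
  unfold truncD
  set g := Function.surjInv (tmk_surjective p) (tmk p f) with hg
  have h1 : tmk p g = tmk p f := Function.surjInv_eq (tmk_surjective p) (tmk p f)
  have h2 : tmk p (g - f) = 0 := by rw [map_sub, h1, sub_self]
  rw [tmk_eq_zero_iff] at h2
  obtain ⟨q, hq⟩ := h2
  have hp1 : p - 1 = (p - 2) + 1 := by have := (Fact.out : p.Prime).two_le; omega
  have h3 : tmk p (X * derivative (g - f)) = 0 := by
    rw [tmk_eq_zero_iff, hq, derivative_mul, derivative_X_pow]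
    refine ⟨C ((p - 1 : ℕ) : ZMod p) * q + X * derivative q, ?_⟩
    rw [hp1]
    simp only [Nat.add_sub_cancel]
    ring
  rw [derivative_sub, mul_sub, map_sub, sub_eq_zero] at h3
  exact h3

theorem truncD_add (p : ℕ) [Fact p.Prime] (a b : TruncRing p) :
    truncD p (a + b) = truncD p a + truncD p b := by
  obtain ⟨f, rfl⟩ := tmk_surjective p a
  obtain ⟨g, rfl⟩ := tmk_surjective p b
  rw [← map_add, truncD_tmk, truncD_tmk, truncD_tmk, ← map_add, derivative_add, mul_add]

theorem truncD_mul (p : ℕ) [Fact p.Prime] (a b : TruncRing p) :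
    truncD p (a * b) = a * truncD p b + truncD p a * b := by
  obtain ⟨f, rfl⟩ := tmk_surjective p a
  obtain ⟨g, rfl⟩ := tmk_surjective p b
  rw [← map_mul, truncD_tmk, truncD_tmk, truncD_tmk, ← map_mul, ← map_mul, ← map_add,
    derivative_mul]
  congr 1
  ring

theorem truncD_intCast (p : ℕ) [Fact p.Prime] (n : ℤ) : truncD p (n : TruncRing p) = 0 := by
  have : (n : TruncRing p) = tmk p (C (n : ZMod p)) := by simp
  rw [this, truncD_tmk, derivative_C, mul_zero, map_zero]

theorem natCast_self_truncRing (p : ℕ) [Fact p.Prime] : ((p : ℕ) : TruncRing p) = 0 := by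
  rw [← map_natCast (tmk p), CharP.cast_eq_zero ((ZMod p)[X]) p, map_zero]

/-- The class of `∑_{i<p} (1+X)^i` vanishes in the truncated polynomial ring. -/
theorem tmk_geom_sum_one_add_X (p : ℕ) [Fact p.Prime] :
    tmk p (∑ i ∈ Finset.range p, (1 + X) ^ i) = 0 := by
  rw [tmk_eq_zero_iff]
  have h1 : (∑ i ∈ Finset.range p, (1 + X : (ZMod p)[X]) ^ i) * X = X ^ p := by
    have h := geom_sum_mul (1 + X : (ZMod p)[X]) p
    rw [add_sub_cancel_left, add_pow_char, one_pow, add_sub_cancel_left] at h
    exact h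
  have hp1 : p = (p - 1) + 1 := by have := (Fact.out : p.Prime).two_le; omega
  have h2 : (∑ i ∈ Finset.range p, (1 + X : (ZMod p)[X]) ^ i) = X ^ (p - 1) := by
    apply mul_right_cancel₀ (X_ne_zero (R := ZMod p))
    rw [h1, ← pow_succ, ← hp1]
  rw [h2]

end

end Fermat.Agent.Kummer.KLA
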