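/-
Team KUMMER, block KLA (Kummer's lemma, design A), owner: helper70.
The logarithmic-derivative homomorphism `(𝓞 K)ˣ → F_p[X]/(X^(p-1))` for `K = ℚ(ζ_p)` and the
reduction of Kummer's lemma to the certificate `KLACert p`.
-/
import Fermat.Agent.Kummer.UnitsModPow
import Fermat.Agent.Kummer.KLA.Defs
import Fermat.Agent.Kummer.KLA.Trunc

set_option autoImplicit false

namespace Fermat.Agent.Kummer.KLA

open Polynomial NumberField

noncomputable section

variable {p : ℕ} [Fact p.Prime] {K : Type*} [Field K] [NumberField K]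
  [IsCyclotomicExtension {p} ℚ K] {ζ : K} (hζ : IsPrimitiveRoot ζ p)

theorem aeval_minpoly_gen_eq_zero :
    aeval (tmk p (1 + X)) (minpoly ℤ hζ.integralPowerBasis.gen) = 0 := by
  have hpos : 0 < p := (Fact.out : p.Prime).pos
  have h1 : minpoly ℤ hζ.toInteger = minpoly ℤ ζ :=
    (RingOfIntegers.minpoly_coe hζ.toInteger).symm
  rw [IsPrimitiveRoot.integralPowerBasis_gen, h1, ← cyclotomic_eq_minpoly hζ hpos, aeval_def,
    eval₂_eq_eval_map]
  have : map (algebraMap ℤ (TruncRing p)) (cyclotomic p ℤ) = cyclotomic p (TruncRing p) :=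
    map_cyclotomic_int p _
  rw [this, cyclotomic_prime, eval_finsetSum]
  simp only [eval_pow, eval_X]
  rw [← tmk_geom_sum_one_add_X p, map_sum]
  simp only [map_pow]

/-- The ring homomorphism `𝓞 K → F_p[X]/(X^(p-1))` sending `ζ` to `1 + X`. -/
def truncHom : 𝓞 K →+* TruncRing p :=
  (hζ.integralPowerBasis.lift (tmk p (1 + X)) (aeval_minpoly_gen_eq_zero hζ)).toRingHom

theorem truncHom_zeta : truncHom hζ hζ.toInteger = tmk p (1 + X) := by
  have h := hζ.integralPowerBasis.lift_gen (tmk p (1 + X)) (aeval_minpoly_gen_eq_zero hζ)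
  rw [IsPrimitiveRoot.integralPowerBasis_gen] at h
  exact h

theorem truncHom_natCast_self : truncHom hζ ((p : ℕ) : 𝓞 K) = 0 := by
  rw [map_natCast, natCast_self_truncRing]

/-- The logarithmic derivative `u ↦ D(π u) / π u`, as an additive homomorphism. -/
def dlog : Additive (𝓞 K)ˣ →+ TruncRing p :=
  AddMonoidHom.mk'
    (fun x => truncD p (truncHom hζ ((Additive.toMul x : (𝓞 K)ˣ) : 𝓞 K)) *
      truncHom hζ (((Additive.toMul x)⁻¹ : (𝓞 K)ˣ) : 𝓞 K))
    (by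
      intro a b
      have ha : truncHom hζ ((Additive.toMul a : (𝓞 K)ˣ) : 𝓞 K) *
          truncHom hζ (((Additive.toMul a)⁻¹ : (𝓞 K)ˣ) : 𝓞 K) = 1 := by
        rw [← map_mul, Units.mul_inv, map_one]
      have hb : truncHom hζ ((Additive.toMul b : (𝓞 K)ˣ) : 𝓞 K) *
          truncHom hζ (((Additive.toMul b)⁻¹ : (𝓞 K)ˣ) : 𝓞 K) = 1 := by
        rw [← map_mul, Units.mul_inv, map_one]
      simp only [toMul_add, Units.val_mul, mul_inv, map_mul, truncD_mul]
      linear_combination (truncD p (truncHom hζ ((Additive.toMul b : (𝓞 K)ˣ) : 𝓞 K)) *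
          truncHom hζ (((Additive.toMul b)⁻¹ : (𝓞 K)ˣ) : 𝓞 K)) * ha +
        (truncD p (truncHom hζ ((Additive.toMul a : (𝓞 K)ˣ) : 𝓞 K)) *
          truncHom hζ (((Additive.toMul a)⁻¹ : (𝓞 K)ˣ) : 𝓞 K)) * hb)

theorem dlog_apply (u : (𝓞 K)ˣ) :
    dlog hζ (Additive.ofMul u) =
      truncD p (truncHom hζ (u : 𝓞 K)) * truncHom hζ ((u⁻¹ : (𝓞 K)ˣ) : 𝓞 K) := rfl

theorem dlog_eq_zero_of_dvd (u : (𝓞 K)ˣ) (n : ℤ) (h : (p : 𝓞 K) ∣ (u : 𝓞 K) - (n : 𝓞 K)) :
    dlog hζ (Additive.ofMul u) = 0 := by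
  obtain ⟨w, hw⟩ := h
  have hu : (u : 𝓞 K) = (n : 𝓞 K) + (p : 𝓞 K) * w := by rw [← hw]; ring
  rw [dlog_apply, hu, map_add, map_mul, truncHom_natCast_self, zero_mul, add_zero, map_intCast,
    truncD_intCast, zero_mul]

/-- The family of units: `ζ` (index `0`) and `1 + ζ + ⋯ + ζ^i` (index `i ≥ 1`). -/
def kUnit (i : Fin ((p - 1) / 2)) : (𝓞 K)ˣ :=
  if (i : ℕ) = 0 then (hζ.toInteger_isPrimitiveRoot.isUnit (NeZero.ne p)).unit
  else (hζ.toInteger_isPrimitiveRoot.geom_sum_isUnit (Fact.out : p.Prime).two_le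
    (Nat.Coprime.symm (((Fact.out : p.Prime).coprime_iff_not_dvd).2
      (Nat.not_dvd_of_pos_of_lt (Nat.succ_pos (i : ℕ))
        (by have := i.2; have := (Fact.out : p.Prime).two_le; omega))))).unit

theorem truncHom_kUnit (i : Fin ((p - 1) / 2)) :
    truncHom hζ ((kUnit hζ i : (𝓞 K)ˣ) : 𝓞 K) =
      tmk p ((kPolyN (i : ℕ)).map (Nat.castRingHom (ZMod p))) := by
  unfold kUnit kPolyN
  split_ifs with h0
  · rw [IsUnit.unit_spec, truncHom_zeta]
    simp
  · rw [IsUnit.unit_spec, map_sum]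
    simp only [map_pow, truncHom_zeta]
    rw [Polynomial.map_sum, map_sum]
    simp

theorem dlog_indep (N : Fin ((p - 1) / 2) → ℕ[X])
    (hN : ∀ i, N i * kPolyN (i : ℕ) =
      derivative (kPolyN (i : ℕ)) * ∏ j : Fin ((p - 1) / 2), kPolyN (j : ℕ))
    (hcert : ∀ c : Fin ((p - 1) / 2) → ZMod p,
      (∀ d < p - 2, ∑ i, c i * (((N i).coeff d : ℕ) : ZMod p) = 0) → c = 0)
    (c : Fin ((p - 1) / 2) → ZMod p)
    (hc : ∑ i, tmk p (C (c i)) * dlog hζ (Additive.ofMul (kUnit hζ i)) = 0) : c = 0 := by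
  set φ : ℕ →+* ZMod p := Nat.castRingHom (ZMod p) with hφ
  have hNb : ∀ i, (N i).map φ * (kPolyN (i : ℕ)).map φ =
      derivative ((kPolyN (i : ℕ)).map φ) * ∏ j : Fin ((p - 1) / 2), (kPolyN (j : ℕ)).map φ := by
    intro i
    rw [← Polynomial.map_mul, hN i, Polynomial.map_mul, Polynomial.derivative_map,
      Polynomial.map_prod]
  have key : ∀ i, dlog hζ (Additive.ofMul (kUnit hζ i)) *
      tmk p (∏ j : Fin ((p - 1) / 2), (kPolyN (j : ℕ)).map φ) = tmk p (X * (N i).map φ) := by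
    intro i
    have hinv : tmk p ((kPolyN (i : ℕ)).map φ) *
        truncHom hζ (((kUnit hζ i)⁻¹ : (𝓞 K)ˣ) : 𝓞 K) = 1 := by
      rw [← truncHom_kUnit hζ, ← map_mul, Units.mul_inv, map_one]
    rw [dlog_apply, truncHom_kUnit, truncD_tmk, mul_right_comm, ← map_mul, mul_assoc, ← hNb i,
      ← mul_assoc, map_mul, mul_assoc, hinv, mul_one]
  have h1 : tmk p (X * ∑ i, C (c i) * (N i).map φ) = 0 := by
    have h2 := congrArg (fun x => x * tmk p (∏ j : Fin ((p - 1) / 2), (kPolyN (j : ℕ)).map φ)) hc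
    simp only [zero_mul, Finset.sum_mul, mul_assoc, key] at h2
    rw [← h2, Finset.mul_sum, map_sum]
    refine Finset.sum_congr rfl (fun i _ => ?_)
    rw [← map_mul]
    congr 1
    ring
  rw [tmk_eq_zero_iff] at h1
  have hp1 : p - 1 = (p - 2) + 1 := by have := (Fact.out : p.Prime).two_le; omega
  have hX : (X : (ZMod p)[X]) ^ (p - 1) = X * X ^ (p - 2) := by rw [← pow_succ', ← hp1]
  rw [hX] at h1
  have h3 : (X : (ZMod p)[X]) ^ (p - 2) ∣ ∑ i, C (c i) * (N i).map φ :=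
    (mul_dvd_mul_iff_left (X_ne_zero (R := ZMod p))).1 h1
  rw [X_pow_dvd_iff] at h3
  apply hcert
  intro d hd
  have h4 := h3 d hd
  rw [finsetSum_coeff] at h4
  rw [← h4]
  refine Finset.sum_congr rfl (fun i _ => ?_)
  rw [coeff_C_mul, coeff_map]
  rfl

/-- Kummer's lemma for `p` from the certificate `KLACert p`. -/
theorem kummerLemmaHolds_of_klaCert (hp2 : p ≠ 2) (hcert : KLACert p) (K : Type*) [Field K]
    [NumberField K] [IsCyclotomicExtension {p} ℚ K] : KummerLemmaHolds p K := by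
  obtain ⟨N, hN, hind⟩ := hcert
  have hζ := IsCyclotomicExtension.zeta_spec p ℚ K
  refine kummerLemmaHolds_of_indep hp2 K (kUnit hζ) ?_
  rintro e ⟨n, hn⟩ i
  have h0 := dlog_eq_zero_of_dvd hζ _ n hn
  rw [ofMul_prod, map_sum] at h0
  have h1 : ∑ i, tmk p (C ((e i : ℤ) : ZMod p)) * dlog hζ (Additive.ofMul (kUnit hζ i)) = 0 := by
    rw [← h0]
    refine Finset.sum_congr rfl (fun i _ => ?_)
    rw [ofMul_zpow, map_zsmul, zsmul_eq_mul]
    congr 1
  have h2 := congrFun (dlog_indep hζ N hN hind _ h1) i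
  exact (ZMod.intCast_zmod_eq_zero_iff_dvd _ _).1 h2

end

end Fermat.Agent.Kummer.KLA
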