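/-
Team KUMMER, block KLA (Kummer's lemma, design A), owner: helper70.
Kummer's lemma for `p = 5, 7, 11, 13`: in `K = ℚ(ζ_p)`, a unit of `𝓞 K` congruent to a rational
integer modulo `p` is a `p`-th power.
-/
import Fermat.Agent.Kummer.KLA.DLog
import Fermat.Agent.Kummer.KLA.Cert5
import Fermat.Agent.Kummer.KLA.Cert7
import Fermat.Agent.Kummer.KLA.Cert11
import Fermat.Agent.Kummer.KLA.Cert13

set_option autoImplicit false

namespace Fermat.Agent.Kummer

open NumberField

theorem kummerLemmaHolds_5 (K : Type*) [Field K] [NumberField K]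
    [IsCyclotomicExtension {5} ℚ K] : KummerLemmaHolds 5 K :=
  haveI : Fact (Nat.Prime 5) := ⟨by norm_num⟩
  KLA.kummerLemmaHolds_of_klaCert (by norm_num) KLA.klaCert_5 K

theorem kummerLemmaHolds_7 (K : Type*) [Field K] [NumberField K]
    [IsCyclotomicExtension {7} ℚ K] : KummerLemmaHolds 7 K :=
  haveI : Fact (Nat.Prime 7) := ⟨by norm_num⟩
  KLA.kummerLemmaHolds_of_klaCert (by norm_num) KLA.klaCert_7 K

theorem kummerLemmaHolds_11 (K : Type*) [Field K] [NumberField K]
    [IsCyclotomicExtension {11} ℚ K] : KummerLemmaHolds 11 K :=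
  haveI : Fact (Nat.Prime 11) := ⟨by norm_num⟩
  KLA.kummerLemmaHolds_of_klaCert (by norm_num) KLA.klaCert_11 K

theorem kummerLemmaHolds_13 (K : Type*) [Field K] [NumberField K]
    [IsCyclotomicExtension {13} ℚ K] : KummerLemmaHolds 13 K :=
  haveI : Fact (Nat.Prime 13) := ⟨by norm_num⟩
  KLA.kummerLemmaHolds_of_klaCert (by norm_num) KLA.klaCert_13 K

end Fermat.Agent.Kummer
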