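import Mathlib

set_option autoImplicit false

/-!
# Kummer's lemma: abstract linear-algebra step

If an additive commutative group `G` is generated by `h` elements and `Λ : G →+ V` is a
homomorphism into a `ZMod p`-module such that the images of `h` elements of `G` are
linearly independent, then every element of the kernel of `Λ` is a `p`-th multiple.
-/

namespace Fermat.Agent.Kummer.KLA

open Module

/-- The quotient of an additive commutative group by its subgroup of `p`-th multiples. -/
abbrev PQuot (p : ℕ) (G : Type*) [AddCommGroup G] : Type _ :=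
  G ⧸ (nsmulAddMonoidHom (α := G) p).range

noncomputable instance instModulePQuot (p : ℕ) (G : Type*) [AddCommGroup G] :
    Module (ZMod p) (PQuot p G) :=
  QuotientAddGroup.zmodModule (fun x => ⟨x, rfl⟩)

theorem exists_nsmul_of_map_eq_zero {G V : Type*} [AddCommGroup G] [AddCommGroup V]
    (p : ℕ) [Fact p.Prime] [Module (ZMod p) V] {h : ℕ} (s : Fin h → G)
    (hs : AddSubgroup.closure (Set.range s) = ⊤) (Λ : G →+ V) (g : Fin h → G)
    (hg : LinearIndependent (ZMod p) (fun i => Λ (g i))) (u : G) (hu : Λ u = 0) :
    ∃ v : G, u = p • v := by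
  classical
  -- the induced map
  have hker : (nsmulAddMonoidHom (α := G) p).range ≤ Λ.ker := by
    rintro _ ⟨x, rfl⟩
    rw [AddMonoidHom.mem_ker]
    simp only [nsmulAddMonoidHom_apply, map_nsmul]
    have : (p : ZMod p) • Λ x = 0 := by rw [ZMod.natCast_self, zero_smul]
    rwa [Nat.cast_smul_eq_nsmul] at this
  let Λ' : PQuot p G →+ V := QuotientAddGroup.lift _ Λ hker
  let L : PQuot p G →ₗ[ZMod p] V := Λ'.toZModLinearMap p
  have hL : ∀ x : G, L (QuotientAddGroup.mk x) = Λ x := fun x => rfl
  -- spanning
  have hspan : Submodule.span (ZMod p)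
      (Set.range fun i => (QuotientAddGroup.mk (s i) : PQuot p G)) = ⊤ := by
    rw [eq_top_iff]
    rintro x -
    obtain ⟨x, rfl⟩ := QuotientAddGroup.mk_surjective x
    have hx : x ∈ AddSubgroup.closure (Set.range s) := by rw [hs]; trivial
    induction hx using AddSubgroup.closure_induction with
    | mem y hy =>
      obtain ⟨i, rfl⟩ := hy
      exact Submodule.subset_span ⟨i, rfl⟩
    | zero => exact Submodule.zero_mem _
    | add a b _ _ ha hb => exact Submodule.add_mem _ ha hb
    | neg a _ ha => exact Submodule.neg_mem _ ha
  have : Module.Finite (ZMod p) (PQuot p G) := by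
    rw [Module.finite_def, ← hspan]
    exact Submodule.fg_span (Set.finite_range _)
  have hfin : finrank (ZMod p) (PQuot p G) ≤ h := by
    have h1 := finrank_range_le_card (R := ZMod p)
      (fun i => (QuotientAddGroup.mk (s i) : PQuot p G))
    rw [Set.finrank, hspan, finrank_top, Fintype.card_fin] at h1
    exact h1
  -- the images of `g` are independent in the quotient
  have hg' : LinearIndependent (ZMod p) (fun i => (QuotientAddGroup.mk (g i) : PQuot p G)) :=
    LinearIndependent.of_comp L hg
  have hcard : Fintype.card (Fin h) = finrank (ZMod p) (PQuot p G) := by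
    have := hg'.fintype_card_le_finrank
    rw [Fintype.card_fin] at this ⊢
    exact le_antisymm this hfin
  have hspan' := hg'.span_eq_top_of_card_eq_finrank' hcard
  have hu' : (QuotientAddGroup.mk u : PQuot p G) ∈
      Submodule.span (ZMod p) (Set.range fun i => (QuotientAddGroup.mk (g i) : PQuot p G)) := by
    rw [hspan']; trivial
  obtain ⟨c, hc⟩ := (Submodule.mem_span_range_iff_exists_fun (ZMod p)).1 hu'
  have hc0 : ∀ i, c i = 0 := by
    refine Fintype.linearIndependent_iff.1 hg c ?_
    have := congrArg L hc
    rw [map_sum, hL, hu] at this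
    simpa [hL] using this
  have hu0 : (QuotientAddGroup.mk u : PQuot p G) = 0 := by
    rw [← hc]
    simp [hc0]
  rw [QuotientAddGroup.eq_zero_iff] at hu0
  obtain ⟨v, hv⟩ := hu0
  exact ⟨v, hv.symm⟩

end Fermat.Agent.Kummer.KLA
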